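import Mathlib
import Fermat.Agent.H40.Hasse.Defs

/-!
# The four ordinary normal forms over `𝔽₃` (helper37, P-S58 / HASSE3)

`c3 a₂ a₆ : y² = x³ + a₂ x² + a₆` over `ZMod 3`; basic facts about its base changes, the
Frobenius on points, and the traces of Frobenius of the four elliptic curves of this shape.
-/

set_option autoImplicit false
set_option linter.unusedSectionVars false

namespace Fermat.Agent.H37.S58

open WeierstrassCurve WeierstrassCurve.Affine Fermat.Agent.H40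

/-- The normal form `y² = x³ + a₂ x² + a₆` over `𝔽₃`. -/
def c3 (a₂ a₆ : ZMod 3) : WeierstrassCurve (ZMod 3) := ⟨0, a₂, 0, 0, a₆⟩

@[simp] lemma c3_a₁ (a₂ a₆ : ZMod 3) : (c3 a₂ a₆).a₁ = 0 := rfl
@[simp] lemma c3_a₂ (a₂ a₆ : ZMod 3) : (c3 a₂ a₆).a₂ = a₂ := rfl
@[simp] lemma c3_a₃ (a₂ a₆ : ZMod 3) : (c3 a₂ a₆).a₃ = 0 := rfl
@[simp] lemma c3_a₄ (a₂ a₆ : ZMod 3) : (c3 a₂ a₆).a₄ = 0 := rfl
@[simp] lemma c3_a₆ (a₂ a₆ : ZMod 3) : (c3 a₂ a₆).a₆ = a₆ := rfl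

lemma c3_Δ (a₂ a₆ : ZMod 3) : (c3 a₂ a₆).Δ = -a₂ ^ 3 * a₆ := by
  simp only [WeierstrassCurve.Δ, WeierstrassCurve.b₂, WeierstrassCurve.b₄, WeierstrassCurve.b₆,
    WeierstrassCurve.b₈, c3]
  revert a₂ a₆
  decide

lemma c3_isElliptic (a₂ a₆ : ZMod 3) (h₂ : a₂ ≠ 0) (h₆ : a₆ ≠ 0) : (c3 a₂ a₆).IsElliptic := by
  rw [WeierstrassCurve.isElliptic_iff, c3_Δ]
  exact isUnit_iff_ne_zero.mpr (mul_ne_zero (neg_ne_zero.mpr (pow_ne_zero 3 h₂)) h₆)

instance c3_isElliptic_pp : (c3 1 1).IsElliptic := c3_isElliptic _ _ (by decide) (by decide)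
instance c3_isElliptic_pm : (c3 1 (-1)).IsElliptic := c3_isElliptic _ _ (by decide) (by decide)
instance c3_isElliptic_mp : (c3 (-1) 1).IsElliptic := c3_isElliptic _ _ (by decide) (by decide)
instance c3_isElliptic_mm : (c3 (-1) (-1)).IsElliptic := c3_isElliptic _ _ (by decide) (by decide)

section Field

variable (K : Type*) [Field K] [Algebra (ZMod 3) K]

lemma h3_three : (3 : K) = 0 := by
  have h : algebraMap (ZMod 3) K 3 = 3 := map_ofNat _ 3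
  have h0 : (3 : ZMod 3) = 0 := by decide
  rw [← h, h0, map_zero]

lemma h3_two_ne : (2 : K) ≠ 0 := by
  intro h
  have h1 : (1 : K) = 0 := by linear_combination h3_three K - h
  exact one_ne_zero h1

variable {K}

@[simp] lemma c3_bc_a₁ (a₂ a₆ : ZMod 3) : ((c3 a₂ a₆)⁄K).a₁ = 0 := by
  simp [WeierstrassCurve.baseChange, WeierstrassCurve.map]
@[simp] lemma c3_bc_a₂ (a₂ a₆ : ZMod 3) : ((c3 a₂ a₆)⁄K).a₂ = algebraMap (ZMod 3) K a₂ := by
  simp [WeierstrassCurve.baseChange, WeierstrassCurve.map]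
@[simp] lemma c3_bc_a₃ (a₂ a₆ : ZMod 3) : ((c3 a₂ a₆)⁄K).a₃ = 0 := by
  simp [WeierstrassCurve.baseChange, WeierstrassCurve.map]
@[simp] lemma c3_bc_a₄ (a₂ a₆ : ZMod 3) : ((c3 a₂ a₆)⁄K).a₄ = 0 := by
  simp [WeierstrassCurve.baseChange, WeierstrassCurve.map]
@[simp] lemma c3_bc_a₆ (a₂ a₆ : ZMod 3) : ((c3 a₂ a₆)⁄K).a₆ = algebraMap (ZMod 3) K a₆ := by
  simp [WeierstrassCurve.baseChange, WeierstrassCurve.map]

lemma c3_equation_iff (a₂ a₆ : ZMod 3) (x y : K) :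
    ((c3 a₂ a₆)⁄K).Equation x y ↔
      y ^ 2 = x ^ 3 + algebraMap (ZMod 3) K a₂ * x ^ 2 + algebraMap (ZMod 3) K a₆ := by
  rw [Affine.equation_iff]
  simp

lemma c3_negY (a₂ a₆ : ZMod 3) (x y : K) : ((c3 a₂ a₆)⁄K).negY x y = -y := by
  simp [Affine.negY]

variable [DecidableEq K]

/-- Frobenius on an affine point over `𝔽₃`. -/
lemma h3_frobPt_some (E : WeierstrassCurve (ZMod 3)) {x y : K} (h : (E⁄K).Nonsingular x y) :
    ∃ h' : (E⁄K).Nonsingular (x ^ 3) (y ^ 3),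
      frobPt E K (Point.some x y h) = Point.some (x ^ 3) (y ^ 3) h' := by
  obtain ⟨h', e⟩ := frobPt_some E K h
  have hc : Fintype.card (ZMod 3) = 3 := ZMod.card 3
  rw [hc] at h'
  refine ⟨h', ?_⟩
  rw [e]
  simp only [Point.some.injEq]
  exact ⟨by rw [hc], by rw [hc]⟩

/-- The Hasse operator over `𝔽₃` in terms of the trace. -/
lemma h3_hasseOp_apply (E : WeierstrassCurve (ZMod 3)) (P : (E⁄K).Point) :
    hasseOp E K P = frobPt E K (frobPt E K P) - E.traceOfFrobenius • frobPt E K P +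
      (3 : ℤ) • P := by
  rw [hasseOp_apply, ZMod.card]
  rfl

end Field

section Count

/-- Point count of an elliptic curve over `𝔽₃` in terms of the affine solutions. -/
lemma c3_card (a₂ a₆ : ZMod 3) [(c3 a₂ a₆).IsElliptic] :
    (c3 a₂ a₆).card =
      Fintype.card {xy : ZMod 3 × ZMod 3 // xy.2 ^ 2 = xy.1 ^ 3 + a₂ * xy.1 ^ 2 + a₆} + 1 := by
  unfold WeierstrassCurve.card
  rw [Nat.card_congr (pointEquiv (c3 a₂ a₆).toAffine)]
  have e : {xy : ZMod 3 × ZMod 3 // (c3 a₂ a₆).toAffine.Equation xy.1 xy.2} ≃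
      {xy : ZMod 3 × ZMod 3 // xy.2 ^ 2 = xy.1 ^ 3 + a₂ * xy.1 ^ 2 + a₆} :=
    Equiv.subtypeEquivRight fun xy => by
      rw [Affine.equation_iff]
      simp
  have e' : WithZero {xy : ZMod 3 × ZMod 3 // (c3 a₂ a₆).toAffine.Equation xy.1 xy.2} ≃
      Option {xy : ZMod 3 × ZMod 3 // xy.2 ^ 2 = xy.1 ^ 3 + a₂ * xy.1 ^ 2 + a₆} :=
    Equiv.optionCongr e
  rw [Nat.card_congr e', Nat.card_eq_fintype_card, Fintype.card_option]

lemma c3_trace (a₂ a₆ : ZMod 3) [(c3 a₂ a₆).IsElliptic] :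
    (c3 a₂ a₆).traceOfFrobenius = 3 -
      (Fintype.card {xy : ZMod 3 × ZMod 3 // xy.2 ^ 2 = xy.1 ^ 3 + a₂ * xy.1 ^ 2 + a₆} : ℤ) := by
  unfold WeierstrassCurve.traceOfFrobenius
  rw [c3_card, Nat.card_eq_fintype_card, ZMod.card]
  push_cast
  ring

lemma c3_trace_pp : (c3 1 1).traceOfFrobenius = -2 := by
  rw [c3_trace]
  have : Fintype.card {xy : ZMod 3 × ZMod 3 // xy.2 ^ 2 = xy.1 ^ 3 + 1 * xy.1 ^ 2 + 1} = 5 := by
    decide
  rw [this]; norm_num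

lemma c3_trace_pm : (c3 1 (-1)).traceOfFrobenius = 1 := by
  rw [c3_trace]
  have : Fintype.card {xy : ZMod 3 × ZMod 3 // xy.2 ^ 2 = xy.1 ^ 3 + 1 * xy.1 ^ 2 + -1} = 2 := by
    decide
  rw [this]; norm_num

lemma c3_trace_mp : (c3 (-1) 1).traceOfFrobenius = -1 := by
  rw [c3_trace]
  have : Fintype.card {xy : ZMod 3 × ZMod 3 // xy.2 ^ 2 = xy.1 ^ 3 + -1 * xy.1 ^ 2 + 1} = 4 := by
    decide
  rw [this]; norm_num

lemma c3_trace_mm : (c3 (-1) (-1)).traceOfFrobenius = 2 := by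
  rw [c3_trace]
  have : Fintype.card {xy : ZMod 3 × ZMod 3 // xy.2 ^ 2 = xy.1 ^ 3 + -1 * xy.1 ^ 2 + -1} = 1 := by
    decide
  rw [this]; norm_num

end Count

end Fermat.Agent.H37.S58
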