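import Mathlib
import Fermat.Agent.H40.Hasse.Defs

/-!
# The Hasse relation from a cofinite verification (helper37, P-S58 / HASSE3)

* `h3_addHom_eq_zero`: an additive endomorphism of `W(K)`, `K` algebraically closed, vanishing at
  every affine point whose `x`-coordinate avoids a finite set, is zero.
* `h3_hasseRelation_of_algClosed`: the Hasse relation for `E` over a finite field follows from
  the vanishing of `hasseOp` at the points of `E(K)` with `x` outside a finite set, for every
  algebraically closed `K`.
-/

set_option autoImplicit false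
set_option linter.unusedSectionVars false

namespace Fermat.Agent.H37.S58

open WeierstrassCurve WeierstrassCurve.Affine Polynomial

section Cofinite

variable {K : Type*} [Field K] [IsAlgClosed K] (W : WeierstrassCurve K)

/-- Over an algebraically closed field every `x` is the abscissa of a point of the curve. -/
lemma h3_exists_equation (x : K) : ∃ y, W.toAffine.Equation x y := by
  set p : K[X] := X ^ 2 + C (W.a₁ * x + W.a₃) * X - C (x ^ 3 + W.a₂ * x ^ 2 + W.a₄ * x + W.a₆)
    with hp
  have hdeg : p.degree ≠ 0 := by
    have h2 : p.natDegree = 2 := by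
      rw [hp]; compute_degree!
    intro h
    have h' : p.natDegree = 0 := natDegree_eq_of_degree_eq_some h
    rw [h2] at h'
    exact absurd h' (by norm_num)
  obtain ⟨y, hy⟩ := IsAlgClosed.exists_root p hdeg
  refine ⟨y, ?_⟩
  rw [Affine.equation_iff]
  have : p.eval y = 0 := hy
  simp only [hp, eval_sub, eval_add, eval_pow, eval_X, eval_mul, eval_C] at this
  linear_combination this

variable [DecidableEq K] [W.IsElliptic]

/-- The set of points with a given abscissa is finite. -/
lemma h3_finite_fibre (x : K) :
    {Q : W.toAffine.Point | ∃ y h, Q = Point.some x y h}.Finite := by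
  by_cases hne : ∃ y, W.toAffine.Nonsingular x y
  · obtain ⟨y₀, h₀⟩ := hne
    apply Set.Finite.subset (Set.toFinite {Point.some x y₀ h₀, -Point.some x y₀ h₀})
    rintro Q ⟨y, h, rfl⟩
    have := (Point.X_eq_iff (h₁ := h) (h₂ := h₀)).mp rfl
    rcases this with e | e
    · exact Or.inl e
    · exact Or.inr e
  · apply Set.Finite.subset Set.finite_empty
    rintro Q ⟨y, h, rfl⟩
    exact (hne ⟨y, h⟩).elim

/-- An additive endomorphism vanishing at all points with abscissa outside a finite set is
zero. -/
theorem h3_addHom_eq_zero (H : W.toAffine.Point →+ W.toAffine.Point) (S : Set K) (hS : S.Finite)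
    (h : ∀ x y (hxy : W.toAffine.Nonsingular x y), x ∉ S → H (Point.some x y hxy) = 0)
    (P : W.toAffine.Point) : H P = 0 := by
  classical
  by_contra hP
  -- the bad set
  set B : Set W.toAffine.Point :=
    {0} ∪ ⋃ x ∈ S, {Q : W.toAffine.Point | ∃ y h, Q = Point.some x y h} with hB
  have hBfin : B.Finite :=
    (Set.finite_singleton _).union (hS.biUnion fun x _ => h3_finite_fibre W x)
  -- a point above each `x`
  have hex : ∀ x : K, ∃ y, W.toAffine.Nonsingular x y := fun x => by
    obtain ⟨y, hy⟩ := h3_exists_equation W x
    exact ⟨y, equation_iff_nonsingular.mp hy⟩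
  choose yy hyy using hex
  set g : K → W.toAffine.Point := fun x => P + Point.some x (yy x) (hyy x) with hg
  have hginj : Function.Injective g := by
    intro x x' hxx
    have := add_left_cancel hxx
    simp only [Point.some.injEq] at this
    exact this.1
  have hmem : ∀ x ∈ Sᶜ, g x ∈ B := by
    intro x hx
    have h0 : H (Point.some x (yy x) (hyy x)) = 0 := h _ _ _ hx
    have h1 : H (g x) ≠ 0 := by
      rw [hg]
      simp only
      rw [map_add, h0, add_zero]
      exact hP
    by_contra hnot
    apply h1
    rcases hgx : g x with _ | ⟨x', y', h'⟩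
    · exact map_zero H
    · apply h
      intro hx'
      apply hnot
      rw [hgx, hB]
      refine Or.inr ?_
      simp only [Set.mem_iUnion]
      exact ⟨x', hx', y', h', rfl⟩
  have hinf : (Sᶜ : Set K).Infinite := hS.infinite_compl
  exact (hinf.image hginj.injOn).mono (by
    rintro _ ⟨x, hx, rfl⟩
    exact hmem x hx) hBfin

end Cofinite

section Reduction

variable {F : Type*} [Field F] [Fintype F] (E : WeierstrassCurve F) [E.IsElliptic]

/-- **Reduction of the Hasse relation to a cofinite verification over algebraically closed
fields.** -/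
theorem h3_hasseRelation_of_algClosed
    (h : ∀ (K : Type) [Field K] [DecidableEq K] [Algebra F K] [IsAlgClosed K],
      ∃ S : Set K, S.Finite ∧ ∀ x y (hxy : (E⁄K).Nonsingular x y), x ∉ S →
        Fermat.Agent.H40.hasseOp E K (Point.some x y hxy) = 0) :
    Fermat.Agent.H40.HasseRelation E := by
  classical
  intro k _ _ _ P
  set K := AlgebraicClosure k with hK
  obtain ⟨S, hS, hSv⟩ := h K
  have : (E⁄K).IsElliptic := inferInstanceAs (E.map (algebraMap F K)).IsElliptic
  have hzero : ∀ Q : (E⁄K).Point, Fermat.Agent.H40.hasseOp E K Q = 0 :=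
    h3_addHom_eq_zero (E⁄K) (Fermat.Agent.H40.hasseOp E K) S hS hSv
  set j : k →ₐ[F] K := IsScalarTower.toAlgHom F k K with hj
  have h1 := Fermat.Agent.H40.hasseOp_map E k j P
  rw [hzero] at h1
  have h2 : Fermat.Agent.H40.hasseOp E k P = 0 :=
    Point.map_injective (W' := E) j (by rw [← h1, map_zero])
  rw [h2, smul_zero]

end Reduction

/-- Finiteness of the zero set of a function given by a nonzero polynomial. -/
lemma h3_finite_roots {K : Type*} [Field K] (p : K[X]) (hp : p ≠ 0) (f : K → K)
    (hf : ∀ x, f x = p.eval x) : {x : K | f x = 0}.Finite := by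
  apply (Polynomial.finite_setOfPred_isRoot hp).subset
  intro x hx
  simp only [Set.mem_setOf_eq] at hx ⊢
  rw [IsRoot, ← hf]
  exact hx

end Fermat.Agent.H37.S58
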