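import Fermat.Agent.H37.S58.OddAdd
import Fermat.Agent.H37.S58.HasseCofinite
import Fermat.Agent.H37.S58.Curves

/-!
# The Hasse relation for `y² = x^3 - x^2 - 1` over `𝔽₃` (helper37, P-S58 / HASSE3)

Explicit verification: `φ - 1` is given by rational functions of small degree; the polynomial
identities (modulo `3` and the curve equation) are certified by explicit cofactors.
-/

set_option autoImplicit false
set_option linter.unusedSectionVars false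
set_option linter.unusedVariables false
set_option linter.unusedSimpArgs false
set_option linter.unnecessarySimpa false

namespace Fermat.Agent.H37.S58

open WeierstrassCurve WeierstrassCurve.Affine Fermat.Agent.H40 Polynomial

section

variable {K : Type} [Field K] [DecidableEq K] [Algebra (ZMod 3) K]

lemma mm_equation {x y : K} (h : ((c3 (-1) (-1))⁄K).Nonsingular x y) :
    y ^ 2 = x ^ 3 - x ^ 2 - 1 := by
  have := (c3_equation_iff (-1) (-1) x y).mp h.1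
  simp only [map_one, map_neg] at this
  linear_combination this

lemma mm_pole {x : K} (hx : x ^ 3 ≠ x) : x + 1 ≠ 0 := by
  intro h0
  apply hx
  have : x = -1 := by linear_combination h0
  rw [this]; ring

/-- `φ - 1` at a point with `x ∉ 𝔽₃`. -/
lemma mm_isog {x y : K} (h : ((c3 (-1) (-1))⁄K).Nonsingular x y) (hx : x ^ 3 ≠ x) :
    ∃ h', frobPt (c3 (-1) (-1)) K (Point.some x y h) - Point.some x y h =
      Point.some ((x ^ 2 + 1) / (x + 1)) (y * (-x ^ 2 + x + 1) / (x + 1) ^ 2) h' := by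
  have h3 : (3 : K) = 0 := h3_three K
  have hE := mm_equation h
  obtain ⟨hφ, eφ⟩ := h3_frobPt_some (c3 (-1) (-1)) h
  rw [eφ]
  have he : x + 1 ≠ 0 := mm_pole hx
  rw [sub_eq_add_neg (Point.some _ _ hφ) (Point.some _ _ h), Point.neg_some]
  apply h3_add_chord _ (c3_bc_a₁ _ _) (c3_bc_a₃ _ _) hφ ((nonsingular_neg ..).mpr h) hx
  · simp only [c3_bc_a₂, map_one, map_neg, c3_negY]
    field_simp
    linear_combination (-x ^ 7 + x ^ 6 - x ^ 4 * y ^ 2 + x ^ 5 - x * y ^ 4 - x ^ 4 + x ^ 2 * y ^ 2 - y ^ 4 - x * y ^ 2 - y ^ 2) * hE + (x ^ 9 - x ^ 7 - x ^ 6 + x ^ 4) * h3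
  · simp only [c3_negY]
    field_simp
    linear_combination (-x ^ 2 * y + y) * hE + (-x ^ 5 * y + x ^ 3 * y) * h3

/-- Duplication formula. -/
lemma mm_dbl {x y : K} (h : ((c3 (-1) (-1))⁄K).Nonsingular x y) (hy : y ≠ 0) :
    ∃ h', Point.some x y h + Point.some x y h = Point.some ((x ^ 4 - x - 1) / (x ^ 3 - x ^ 2 - 1)) (y * (-x ^ 6 - x ^ 5 - x ^ 3 + x ^ 2 - x - 1) / (x ^ 3 - x ^ 2 - 1) ^ 2) h' := by
  have h3 : (3 : K) = 0 := h3_three K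
  have hE := mm_equation h
  have hF : x ^ 3 - x ^ 2 - 1 ≠ 0 := by rw [← hE]; exact pow_ne_zero 2 hy
  apply h3_dbl _ (c3_bc_a₁ _ _) (c3_bc_a₃ _ _) (h3_two_ne K) hy h
  · simp only [c3_bc_a₂, c3_bc_a₄, map_one, map_neg]
    generalize hFv : x ^ 3 - x ^ 2 - 1 = Fv at hF ⊢
    field_simp
    subst hFv
    linear_combination (12 * x ^ 4 - 12 * x ^ 3 + 4 * x ^ 2 - 12 * x) * hE + (x ^ 7 - x ^ 6 - 5 * x ^ 4 + 4 * x ^ 3 + 4 * x) * h3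
  · simp only [c3_bc_a₂, c3_bc_a₄, map_one, map_neg]
    generalize hFv : x ^ 3 - x ^ 2 - 1 = Fv at hF ⊢
    field_simp
    subst hFv
    linear_combination (-6 * x ^ 5 + 2 * x ^ 4 - 6 * x ^ 3 + 6 * x ^ 2 - 2 * x) * hE + (-x ^ 8 + x ^ 7 - 2 * x ^ 6 + 4 * x ^ 5 - x ^ 4 + 2 * x ^ 3 - x ^ 2) * h3

/-- `φ - 1` at the image point: `(φ - 1)² P = -2 P`. -/
lemma mm_isog2 {x y : K} (h : ((c3 (-1) (-1))⁄K).Nonsingular x y) (hx : x ^ 3 ≠ x)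
    (hy : y ≠ 0)
    (hQ : ((c3 (-1) (-1))⁄K).Nonsingular ((x ^ 2 + 1) / (x + 1)) (y * (-x ^ 2 + x + 1) / (x + 1) ^ 2))
    (hr : ((x ^ 2 + 1) / (x + 1)) ^ 3 ≠ (x ^ 2 + 1) / (x + 1)) :
    ∃ h', frobPt (c3 (-1) (-1)) K (Point.some _ _ hQ) - Point.some _ _ hQ =
      Point.some ((x ^ 4 - x - 1) / (x ^ 3 - x ^ 2 - 1)) (-(y * (-x ^ 6 - x ^ 5 - x ^ 3 + x ^ 2 - x - 1) / (x ^ 3 - x ^ 2 - 1) ^ 2)) h' := by
  have h3 : (3 : K) = 0 := h3_three K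
  have hE := mm_equation h
  have hF : x ^ 3 - x ^ 2 - 1 ≠ 0 := by rw [← hE]; exact pow_ne_zero 2 hy
  obtain ⟨hφ, eφ⟩ := h3_frobPt_some (c3 (-1) (-1)) hQ
  rw [eφ]
  have he : x + 1 ≠ 0 := mm_pole hx
  rw [sub_eq_add_neg (Point.some _ _ hφ) (Point.some _ _ hQ), Point.neg_some]
  apply h3_add_chord _ (c3_bc_a₁ _ _) (c3_bc_a₃ _ _) hφ ((nonsingular_neg ..).mpr hQ) hr
  · simp only [c3_bc_a₂, map_one, map_neg, c3_negY]
    generalize hFv : x ^ 3 - x ^ 2 - 1 = Fv at hF ⊢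
    field_simp
    subst hFv
    linear_combination (-x ^ 21 + 9 * x ^ 20 - x ^ 18 * y ^ 2 - 30 * x ^ 19 + 8 * x ^ 17 * y ^ 2 - x ^ 15 * y ^ 4 + 37 * x ^ 18 - 22 * x ^ 16 * y ^ 2 + 7 * x ^ 14 * y ^ 4 + 7 * x ^ 17 + 14 * x ^ 15 * y ^ 2 - 15 * x ^ 13 * y ^ 4 - 25 * x ^ 16 + 29 * x ^ 14 * y ^ 2 - 25 * x ^ 15 - 18 * x ^ 13 * y ^ 2 + 34 * x ^ 11 * y ^ 4 - 54 * x ^ 14 - 28 * x ^ 12 * y ^ 2 - 15 * x ^ 10 * y ^ 4 + 85 * x ^ 13 - 48 * x ^ 11 * y ^ 2 - 37 * x ^ 9 * y ^ 4 + 142 * x ^ 12 + 24 * x ^ 10 * y ^ 2 + 5 * x ^ 8 * y ^ 4 + 34 * x ^ 11 + 120 * x ^ 9 * y ^ 2 + 30 * x ^ 7 * y ^ 4 - 119 * x ^ 10 + 53 * x ^ 8 * y ^ 2 + 21 * x ^ 6 * y ^ 4 - 235 * x ^ 9 - 76 * x ^ 7 * y ^ 2 - 13 * x ^ 5 * y ^ 4 - 149 * x ^ 8 - 123 * x ^ 6 * y ^ 2 - 27 * x ^ 4 * y ^ 4 + 52 * x ^ 7 - 60 * x ^ 5 * y ^ 2 - 5 * x ^ 3 * y ^ 4 + 177 * x ^ 6 + 39 * x ^ 4 * y ^ 2 + 10 * x ^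 2 * y ^ 4 + 180 * x ^ 5 + 70 * x ^ 3 * y ^ 2 + 6 * x * y ^ 4 + 104 * x ^ 4 + 39 * x ^ 2 * y ^ 2 + y ^ 4 + 32 * x ^ 3 + 10 * x * y ^ 2 + 4 * x ^ 2 + y ^ 2) * hE + (4 * x ^ 23 - 10 * x ^ 22 + 28 * x ^ 21 - 2 * x ^ 20 + 11 * x ^ 19 - 8 * x ^ 18 - 29 * x ^ 17 + 3 * x ^ 16 - 45 * x ^ 15 - 89 * x ^ 14 - 103 * x ^ 13 - 43 * x ^ 12 + 115 * x ^ 11 + 221 * x ^ 10 + 197 * x ^ 9 + 74 * x ^ 8 - 71 * x ^ 7 - 131 * x ^ 6 - 111 * x ^ 5 - 62 * x ^ 4 - 20 * x ^ 3 - 4 * x ^ 2) * h3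
  · simp only [c3_negY]
    generalize hFv : x ^ 3 - x ^ 2 - 1 = Fv at hF ⊢
    field_simp
    subst hFv
    linear_combination (-2 * x ^ 15 + 5 * x ^ 14 + 5 * x ^ 13 - 12 * x ^ 12 - 12 * x ^ 11 + x ^ 10 + 22 * x ^ 9 + 26 * x ^ 8 - 7 * x ^ 7 - 28 * x ^ 6 - 20 * x ^ 5 - x ^ 4 + 12 * x ^ 3 + 9 * x ^ 2 + 2 * x) * hE + (5 * x ^ 17 + 7 * x ^ 16 + 8 * x ^ 15 + 16 * x ^ 14 + 25 * x ^ 13 + 37 * x ^ 12 + 27 * x ^ 11 - 8 * x ^ 10 - 40 * x ^ 9 - 52 * x ^ 8 - 34 * x ^ 7 - 7 * x ^ 6 + 7 * x ^ 5 + 7 * x ^ 4 + 2 * x ^ 3) * h3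

/-- The Hasse operator vanishes at generic points. -/
lemma mm_hasseOp {x y : K} (h : ((c3 (-1) (-1))⁄K).Nonsingular x y) (hx : x ^ 3 ≠ x)
    (hy : y ≠ 0) (hr : ((x ^ 2 + 1) / (x + 1)) ^ 3 ≠ (x ^ 2 + 1) / (x + 1)) :
    hasseOp (c3 (-1) (-1)) K (Point.some x y h) = 0 := by
  obtain ⟨hQ, eQ⟩ := mm_isog h hx
  obtain ⟨hT, eT⟩ := mm_isog2 h hx hy hQ hr
  obtain ⟨hD, eD⟩ := mm_dbl h hy
  rw [h3_hasseOp_apply, c3_trace_mm]
  have key : ∀ P : ((c3 (-1) (-1))⁄K).Point,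
      frobPt (c3 (-1) (-1)) K (frobPt (c3 (-1) (-1)) K P) - (2 : ℤ) • frobPt (c3 (-1) (-1)) K P +
        (3 : ℤ) • P =
      (frobPt (c3 (-1) (-1)) K (frobPt (c3 (-1) (-1)) K P - P) -
        (frobPt (c3 (-1) (-1)) K P - P)) + (P + P) := by
    intro P
    rw [map_sub]
    abel
  rw [key, eQ, eT, eD]
  exact Point.add_of_Y_eq rfl (by rw [c3_negY])

end

/-- **The Hasse relation for `y² = x^3 - x^2 - 1` over `𝔽₃`.** -/
theorem mm_hasse : HasseRelation (c3 (-1) (-1)) := by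
  apply h3_hasseRelation_of_algClosed
  intro K _ _ _ _
  have h3 : (3 : K) = 0 := h3_three K
  refine ⟨{x : K | x ^ 3 - x = 0} ∪ {x : K | x ^ 3 - x ^ 2 - 1 = 0} ∪ {x : K | (x ^ 2 + 1) ^ 3 - (x ^ 2 + 1) * (x + 1) ^ 2 = 0}, ?_, ?_⟩
  · refine Set.Finite.union (Set.Finite.union ?_ ?_) ?_
    · exact h3_finite_roots (X ^ 3 - X : K[X]) (by
        apply ne_zero_of_natDegree_gt (n := 0)
        have : (X ^ 3 - X : K[X]).natDegree = 3 := by compute_degree!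
        rw [this]; norm_num) (fun x => x ^ 3 - x) (fun x => by simp)
    · exact h3_finite_roots (X ^ 3 - X ^ 2 - 1 : K[X]) (by
        apply ne_zero_of_natDegree_gt (n := 0)
        have : (X ^ 3 - X ^ 2 - 1 : K[X]).natDegree = 3 := by compute_degree!
        rw [this]; norm_num) (fun x => x ^ 3 - x ^ 2 - 1) (fun x => by simp)
    · exact h3_finite_roots ((X ^ 2 + 1) ^ 3 - (X ^ 2 + 1) * (X + 1) ^ 2 : K[X]) (by
        apply ne_zero_of_natDegree_gt (n := 0)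
        have : ((X ^ 2 + 1) ^ 3 - (X ^ 2 + 1) * (X + 1) ^ 2 : K[X]).natDegree = 6 := by compute_degree!
        rw [this]; norm_num) (fun x => (x ^ 2 + 1) ^ 3 - (x ^ 2 + 1) * (x + 1) ^ 2) (fun x => by simp)
  · intro x y hxy hx
    simp only [Set.mem_union, Set.mem_setOf_eq, not_or] at hx
    obtain ⟨⟨hx1, hx2⟩, hx3⟩ := hx
    have hxx : x ^ 3 ≠ x := fun h0 => hx1 (by rw [h0, sub_self])
    have hE := mm_equation hxy
    have hy : y ≠ 0 := by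
      rintro rfl
      apply hx2
      rw [← hE]; ring
    have he : x + 1 ≠ 0 := mm_pole hxx
    refine mm_hasseOp hxy hxx hy ?_
    intro h0
    apply hx3
    field_simp at h0
    linear_combination h0

end Fermat.Agent.H37.S58
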