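import Fermat.Agent.H37.S58.OddAdd
import Fermat.Agent.H37.S58.HasseCofinite
import Fermat.Agent.H37.S58.Curves

/-!
# The Hasse relation for `y² = x^3 - x^2 + 1` over `𝔽₃` (helper37, P-S58 / HASSE3)

Explicit verification: `φ + 1` is given by rational functions of small degree; the polynomial
identities (modulo `3` and the curve equation) are certified by explicit cofactors.
-/

set_option autoImplicit false
set_option linter.unusedSectionVars false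
set_option linter.unusedVariables false
set_option linter.unusedSimpArgs false
set_option linter.unnecessarySimpa false

namespace Fermat.Agent.H37.S58

open WeierstrassCurve WeierstrassCurve.Affine Fermat.Agent.H40 Polynomial

section

variable {K : Type} [Field K] [DecidableEq K] [Algebra (ZMod 3) K]

lemma mp_equation {x y : K} (h : ((c3 (-1) 1)⁄K).Nonsingular x y) :
    y ^ 2 = x ^ 3 - x ^ 2 + 1 := by
  have := (c3_equation_iff (-1) 1 x y).mp h.1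
  simp only [map_one, map_neg] at this
  linear_combination this

lemma mp_pole {x : K} (hx : x ^ 3 ≠ x) : x + 1 ≠ 0 := by
  intro h0
  apply hx
  have : x = -1 := by linear_combination h0
  rw [this]; ring

/-- `φ + 1` at a point with `x ∉ 𝔽₃`. -/
lemma mp_isog {x y : K} (h : ((c3 (-1) 1)⁄K).Nonsingular x y) (hx : x ^ 3 ≠ x) :
    ∃ h', frobPt (c3 (-1) 1) K (Point.some x y h) + Point.some x y h =
      Point.some ((x ^ 3 + x + 1) / (x + 1) ^ 2) (y * (x ^ 3 - x - 1) / (x + 1) ^ 3) h' := by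
  have h3 : (3 : K) = 0 := h3_three K
  have hE := mp_equation h
  obtain ⟨hφ, eφ⟩ := h3_frobPt_some (c3 (-1) 1) h
  rw [eφ]
  have he : x + 1 ≠ 0 := mp_pole hx
  apply h3_add_chord _ (c3_bc_a₁ _ _) (c3_bc_a₃ _ _) hφ h hx
  · simp only [c3_bc_a₂, map_one, map_neg, c3_negY]
    field_simp
    linear_combination (-x ^ 8 - x ^ 5 * y ^ 2 + 2 * x ^ 6 - x ^ 4 * y ^ 2 - x ^ 2 * y ^ 4 + x ^ 3 * y ^ 2 - 2 * x * y ^ 4 - x ^ 4 + 2 * x ^ 2 * y ^ 2 - y ^ 4 + 2 * x * y ^ 2 + y ^ 2) * hE + (x ^ 10 + x ^ 9 - 2 * x ^ 8 - 2 * x ^ 7 + x ^ 6 + x ^ 5) * h3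
  · field_simp
    linear_combination (-2 * x ^ 3 * y - 2 * x ^ 2 * y + x * y + y) * hE + (x ^ 5 * y + x ^ 4 * y - x ^ 3 * y - x ^ 2 * y) * h3

/-- Duplication formula. -/
lemma mp_dbl {x y : K} (h : ((c3 (-1) 1)⁄K).Nonsingular x y) (hy : y ≠ 0) :
    ∃ h', Point.some x y h + Point.some x y h = Point.some ((x ^ 4 + x + 1) / (x ^ 3 - x ^ 2 + 1)) (y * (-x ^ 6 - x ^ 5 + x ^ 3 - x ^ 2 + x - 1) / (x ^ 3 - x ^ 2 + 1) ^ 2) h' := by
  have h3 : (3 : K) = 0 := h3_three K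
  have hE := mp_equation h
  have hF : x ^ 3 - x ^ 2 + 1 ≠ 0 := by rw [← hE]; exact pow_ne_zero 2 hy
  apply h3_dbl _ (c3_bc_a₁ _ _) (c3_bc_a₃ _ _) (h3_two_ne K) hy h
  · simp only [c3_bc_a₂, c3_bc_a₄, map_one, map_neg]
    generalize hFv : x ^ 3 - x ^ 2 + 1 = Fv at hF ⊢
    field_simp
    subst hFv
    linear_combination (12 * x ^ 4 - 12 * x ^ 3 + 4 * x ^ 2 + 12 * x) * hE + (x ^ 7 - x ^ 6 + 5 * x ^ 4 - 4 * x ^ 3 + 4 * x) * h3
  · simp only [c3_bc_a₂, c3_bc_a₄, map_one, map_neg]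
    generalize hFv : x ^ 3 - x ^ 2 + 1 = Fv at hF ⊢
    field_simp
    subst hFv
    linear_combination (-6 * x ^ 5 + 2 * x ^ 4 + 6 * x ^ 3 - 6 * x ^ 2 + 2 * x) * hE + (-x ^ 8 + x ^ 7 + 2 * x ^ 6 - 4 * x ^ 5 + x ^ 4 + 2 * x ^ 3 - x ^ 2) * h3

/-- Triplication: `3 P = -φ ((φ + 1) P)`. -/
lemma mp_tripl {x y : K} (h : ((c3 (-1) 1)⁄K).Nonsingular x y) (hx : x ^ 3 ≠ x)
    (hy : y ≠ 0)
    (hD : ((c3 (-1) 1)⁄K).Nonsingular ((x ^ 4 + x + 1) / (x ^ 3 - x ^ 2 + 1)) (y * (-x ^ 6 - x ^ 5 + x ^ 3 - x ^ 2 + x - 1) / (x ^ 3 - x ^ 2 + 1) ^ 2)) :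
    ∃ h', Point.some _ _ hD + Point.some x y h =
      Point.some (((x ^ 3 + x + 1) / (x + 1) ^ 2) ^ 3) (-(y * (x ^ 3 - x - 1) / (x + 1) ^ 3) ^ 3) h' := by
  have h3 : (3 : K) = 0 := h3_three K
  have hE := mp_equation h
  have hF : x ^ 3 - x ^ 2 + 1 ≠ 0 := by rw [← hE]; exact pow_ne_zero 2 hy
  have he : x + 1 ≠ 0 := mp_pole hx
  have hX : (x ^ 4 + x + 1) / (x ^ 3 - x ^ 2 + 1) ≠ x := by
    intro h0
    rw [div_eq_iff hF] at h0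
    have h1 : (x + 1) ^ 3 = 0 := by
      linear_combination (1) * h0 + (x ^ 2 + x) * h3
    exact he (pow_eq_zero_iff (by norm_num) |>.mp h1)
  apply h3_add_chord _ (c3_bc_a₁ _ _) (c3_bc_a₃ _ _) hD h hX
  · simp only [c3_bc_a₂, map_one, map_neg]
    generalize hFv : x ^ 3 - x ^ 2 + 1 = Fv at hF ⊢
    field_simp
    subst hFv
    linear_combination (-4 * x ^ 18 - 20 * x ^ 17 - 41 * x ^ 16 - 52 * x ^ 15 - 62 * x ^ 14 - 64 * x ^ 13 - 29 * x ^ 12 - 2 * x ^ 11 - 32 * x ^ 10 - 56 * x ^ 9 - 48 * x ^ 8 - 62 * x ^ 7 - 61 * x ^ 6 - 4 * x ^ 5 + 26 * x ^ 4 - 8 * x ^ 3 - 33 * x ^ 2 - 20 * x - 4) * hE + (-x ^ 21 - 6 * x ^ 20 - 5 * x ^ 19 - 2 * x ^ 18 - 9 * x ^ 17 - 7 * x ^ 16 + x ^ 15 + 4 * x ^ 14 - 9 * x ^ 13 - 11 * x ^ 12 + 32 * x ^ 11 + 29 * x ^ 10 - 4 * x ^ 9 + 28 * x ^ 8 + 32 * x ^ 7 - 9 * x ^ 6 + 4 * x ^ 5 + 30 * x ^ 4 + 14 * x ^ 3 - 5 * x ^ 2 - 5 * x - 1) * h3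
  · generalize hFv : x ^ 3 - x ^ 2 + 1 = Fv at hF ⊢
    field_simp
    subst hFv
    linear_combination (-x ^ 18 + 2 * x ^ 17 + 2 * x ^ 16 - 6 * x ^ 15 - 2 * x ^ 14 + 11 * x ^ 13 + x ^ 12 - 15 * x ^ 11 + x ^ 10 + 15 * x ^ 9 - 3 * x ^ 8 - 13 * x ^ 7 + 3 * x ^ 6 + 9 * x ^ 5 - 2 * x ^ 4 - 5 * x ^ 3 + x ^ 2 + 3 * x + 1) * hE + (-x ^ 21 - x ^ 19 - 3 * x ^ 18 + 14 * x ^ 17 + 31 * x ^ 16 + 17 * x ^ 15 + 15 * x ^ 14 + 45 * x ^ 13 + 55 * x ^ 12 + 51 * x ^ 11 + 67 * x ^ 10 + 78 * x ^ 9 + 60 * x ^ 8 + 31 * x ^ 7 + 26 * x ^ 6 + 49 * x ^ 5 + 58 * x ^ 4 + 35 * x ^ 3 + 10 * x ^ 2 + x) * h3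

/-- The Hasse operator vanishes at generic points. -/
lemma mp_hasseOp {x y : K} (h : ((c3 (-1) 1)⁄K).Nonsingular x y) (hx : x ^ 3 ≠ x)
    (hy : y ≠ 0) :
    hasseOp (c3 (-1) 1) K (Point.some x y h) = 0 := by
  obtain ⟨hQ, eQ⟩ := mp_isog h hx
  obtain ⟨hD, eD⟩ := mp_dbl h hy
  obtain ⟨hT, eT⟩ := mp_tripl h hx hy hD
  obtain ⟨hφ, eφ⟩ := h3_frobPt_some (c3 (-1) 1) hQ
  rw [h3_hasseOp_apply, c3_trace_mp]
  have key : ∀ P : ((c3 (-1) 1)⁄K).Point,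
      frobPt (c3 (-1) 1) K (frobPt (c3 (-1) 1) K P) - (-1 : ℤ) • frobPt (c3 (-1) 1) K P +
        (3 : ℤ) • P =
      frobPt (c3 (-1) 1) K (frobPt (c3 (-1) 1) K P + P) + ((P + P) + P) := by
    intro P
    rw [map_add]
    abel
  rw [key, eQ, eφ, eD, eT]
  exact Point.add_of_Y_eq rfl (by rw [c3_negY]; ring)

end

/-- **The Hasse relation for `y² = x^3 - x^2 + 1` over `𝔽₃`.** -/
theorem mp_hasse : HasseRelation (c3 (-1) 1) := by
  apply h3_hasseRelation_of_algClosed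
  intro K _ _ _ _
  have h3 : (3 : K) = 0 := h3_three K
  refine ⟨{x : K | x ^ 3 - x = 0} ∪ {x : K | x ^ 3 - x ^ 2 + 1 = 0}, ?_, ?_⟩
  · refine Set.Finite.union ?_ ?_
    · exact h3_finite_roots (X ^ 3 - X : K[X]) (by
        apply ne_zero_of_natDegree_gt (n := 0)
        have : (X ^ 3 - X : K[X]).natDegree = 3 := by compute_degree!
        rw [this]; norm_num) (fun x => x ^ 3 - x) (fun x => by simp)
    · exact h3_finite_roots (X ^ 3 - X ^ 2 + 1 : K[X]) (by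
        apply ne_zero_of_natDegree_gt (n := 0)
        have : (X ^ 3 - X ^ 2 + 1 : K[X]).natDegree = 3 := by compute_degree!
        rw [this]; norm_num) (fun x => x ^ 3 - x ^ 2 + 1) (fun x => by simp)
  · intro x y hxy hx
    simp only [Set.mem_union, Set.mem_setOf_eq, not_or] at hx
    obtain ⟨hx1, hx2⟩ := hx
    have hxx : x ^ 3 ≠ x := fun h0 => hx1 (by rw [h0, sub_self])
    have hE := mp_equation hxy
    have hy : y ≠ 0 := by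
      rintro rfl
      apply hx2
      rw [← hE]; ring
    exact mp_hasseOp hxy hxx hy

end Fermat.Agent.H37.S58
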