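import Fermat.Agent.H37.S58.HassePP
import Fermat.Agent.H37.S58.HasseMM
import Fermat.Agent.H37.S58.HassePM
import Fermat.Agent.H37.S58.HasseMP
import Fermat.Agent.H40.Hasse.Transfer
import Fermat.Agent.H51.S58.Interfaces

/-!
# The Hasse relation for every elliptic curve over `𝔽₃` (helper37, P-S58 / row S58-HASSE3)

`hasseThree : HasseSmallStatement 3`.

Mathlib's characteristic-3 normal form (`WeierstrassCurve.toCharThreeNF`) reduces to
* `y² = x³ + a₄ x + a₆` (supersingular): helper40's `hasseRelation_short` (needs only `2 ≠ 0`);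
* `y² = x³ + a₂ x² + a₆`, `a₂, a₆ = ± 1` (ordinary, four curves): explicit verification in
  `HassePP`, `HassePM`, `HasseMP`, `HasseMM`, using that `φ - 1` or `φ + 1` is an isogeny of
  degree `2` or `3` given by explicit rational functions.
-/

set_option autoImplicit false

namespace Fermat.Agent.H37.S58

open WeierstrassCurve Fermat.Agent.H40

/-- The Hasse relation for the four ordinary normal forms over `𝔽₃`. -/
theorem c3_hasse (a₂ a₆ : ZMod 3) (h₂ : a₂ ≠ 0) (h₆ : a₆ ≠ 0) : HasseRelation (c3 a₂ a₆) := by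
  have hc : ∀ a : ZMod 3, a ≠ 0 → a = 1 ∨ a = -1 := by decide
  rcases hc a₂ h₂ with rfl | rfl <;> rcases hc a₆ h₆ with rfl | rfl
  exacts [pp_hasse, pm_hasse, mp_hasse, mm_hasse]

lemma h3_two_ne_zmod : (2 : ZMod 3) ≠ 0 := by decide

/-- **S58-HASSE3**: the Hasse relation `2 • (φ² - a φ + 3) = 0` for every elliptic curve over
`𝔽₃`. -/
theorem hasseThree :
    @Fermat.Agent.H51.S58.HasseSmallStatement 3 (Fact.mk Nat.prime_three) := by
  intro E hΔ
  have : Fact (Nat.Prime 3) := ⟨Nat.prime_three⟩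
  have : CharP (ZMod 3) 3 := ZMod.charP 3
  have hell : E.IsElliptic := E.isElliptic_iff.mpr (isUnit_iff_ne_zero.mpr hΔ)
  set C₀ := E.toCharThreeNF with hC₀
  set S := C₀ • E with hS
  have hE : E = C₀⁻¹ • S := by rw [hS, inv_smul_smul]
  have hSell : S.IsElliptic := by rw [hS]; infer_instance
  have hNF : S.IsCharThreeNF := E.toCharThreeNF_spec
  rw [hE]
  apply hasseRelation_variableChange
  have h2 : (2 : ZMod 3) ≠ 0 := h3_two_ne_zmod
  cases hNF with
  | of_j_ne_zero =>
    have hSc : S = c3 S.a₂ S.a₆ := by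
      ext
      · exact a₁_of_isCharThreeJNeZeroNF S
      · rfl
      · exact a₃_of_isCharThreeJNeZeroNF S
      · exact a₄_of_isCharThreeJNeZeroNF S
      · rfl
    have hΔS : S.Δ ≠ 0 := S.isUnit_Δ.ne_zero
    rw [hSc, c3_Δ] at hΔS
    have h₂ : S.a₂ ≠ 0 := by
      intro h0
      apply hΔS
      rw [h0]; ring
    have h₆ : S.a₆ ≠ 0 := by
      intro h0
      apply hΔS
      rw [h0]; ring
    have key := c3_hasse S.a₂ S.a₆ h₂ h₆
    rw [← hSc] at key
    exact key
  | of_j_eq_zero =>
    have hSs : S = shortE S.a₄ S.a₆ := by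
      ext
      · exact a₁_of_isShortNF S
      · exact a₂_of_isShortNF S
      · exact a₃_of_isShortNF S
      · rfl
      · rfl
    have : (shortE S.a₄ S.a₆).IsElliptic := by rw [← hSs]; exact hSell
    have key : HasseRelation (shortE S.a₄ S.a₆) :=
      fun k _ _ _ P => hasseRelation_short S.a₄ S.a₆ h2 k P
    rw [← hSs] at key
    exact key

end Fermat.Agent.H37.S58
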