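import Mathlib

/-!
# Chord and tangent formulas on `y² = cubic` with prescribed targets (helper37, P-S58 / HASSE3)

Generic (characteristic-free) lemmas: if the candidate coordinates `(x₃, y₃)` satisfy the
cross-multiplied chord (resp. tangent) equations, then they are the coordinates of the sum
(resp. the double).  Points are written in "odd" form `(x, y * v)`, with `y ^ 2 = F`.
-/

set_option autoImplicit false
set_option linter.unusedSectionVars false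

namespace Fermat.Agent.H37.S58

open WeierstrassCurve WeierstrassCurve.Affine

variable {k : Type*} [Field k] [DecidableEq k]

/-- Congruence for `Point.some`. -/
lemma h3_some_congr {W : WeierstrassCurve k} {x x' y y' : k} (hx : x = x') (hy : y = y')
    (h : W.toAffine.Nonsingular x y) :
    ∃ h' : W.toAffine.Nonsingular x' y', Point.some x y h = Point.some x' y' h' := by
  subst hx hy
  exact ⟨h, rfl⟩

/-- Chord addition with prescribed target. -/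
lemma h3_add_chord (W : WeierstrassCurve k) (ha₁ : W.a₁ = 0) (ha₃ : W.a₃ = 0)
    {x₁ y₁ x₂ y₂ x₃ y₃ : k}
    (h₁ : W.toAffine.Nonsingular x₁ y₁) (h₂ : W.toAffine.Nonsingular x₂ y₂) (hx : x₁ ≠ x₂)
    (hx₃ : x₃ * (x₁ - x₂) ^ 2 = (y₁ - y₂) ^ 2 - (W.a₂ + x₁ + x₂) * (x₁ - x₂) ^ 2)
    (hy₃ : y₃ * (x₁ - x₂) = -((y₁ - y₂) * (x₃ - x₁) + y₁ * (x₁ - x₂))) :
    ∃ h₃, Point.some x₁ y₁ h₁ + Point.some x₂ y₂ h₂ = Point.some x₃ y₃ h₃ := by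
  have hd : x₁ - x₂ ≠ 0 := sub_ne_zero.mpr hx
  have hX : W.toAffine.addX x₁ x₂ (W.toAffine.slope x₁ x₂ y₁ y₂) = x₃ := by
    rw [slope_of_X_ne hx]
    simp only [addX, ha₁]
    field_simp
    linear_combination -hx₃
  have hY : W.toAffine.addY x₁ x₂ y₁ (W.toAffine.slope x₁ x₂ y₁ y₂) = y₃ := by
    simp only [addY, negAddY, negY, hX, ha₁, ha₃]
    rw [slope_of_X_ne hx]
    field_simp
    linear_combination -hy₃
  rw [Point.add_of_X_ne hx]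
  exact h3_some_congr hX hY _

/-- Chord addition of "odd" points `(x₁, y v₁) + (x₂, y v₂)`, `y ^ 2 = F`. -/
lemma h3_add_odd (W : WeierstrassCurve k) (ha₁ : W.a₁ = 0) (ha₃ : W.a₃ = 0)
    {y F x₁ v₁ x₂ v₂ x₃ v₃ : k} (hF : y ^ 2 = F)
    (h₁ : W.toAffine.Nonsingular x₁ (y * v₁)) (h₂ : W.toAffine.Nonsingular x₂ (y * v₂))
    (hx : x₁ ≠ x₂)
    (hx₃ : x₃ * (x₁ - x₂) ^ 2 = F * (v₁ - v₂) ^ 2 - (W.a₂ + x₁ + x₂) * (x₁ - x₂) ^ 2)
    (hv₃ : v₃ * (x₁ - x₂) = -((v₁ - v₂) * (x₃ - x₁) + v₁ * (x₁ - x₂))) :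
    ∃ h₃, Point.some x₁ (y * v₁) h₁ + Point.some x₂ (y * v₂) h₂ = Point.some x₃ (y * v₃) h₃ := by
  apply h3_add_chord W ha₁ ha₃ h₁ h₂ hx
  · rw [hx₃, ← hF]; ring
  · linear_combination y * hv₃

/-- Duplication of an "odd" point `(x₁, y v₁)`, `y ^ 2 = F`, with prescribed target. -/
lemma h3_dbl_odd (W : WeierstrassCurve k) (ha₁ : W.a₁ = 0) (ha₃ : W.a₃ = 0) (h2 : (2 : k) ≠ 0)
    {y F x₁ v₁ x₃ v₃ : k} (hF : y ^ 2 = F) (hy : y ≠ 0) (hv₁ : v₁ ≠ 0)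
    (h₁ : W.toAffine.Nonsingular x₁ (y * v₁))
    (hx₃ : x₃ * (4 * F * v₁ ^ 2) =
      (3 * x₁ ^ 2 + 2 * W.a₂ * x₁ + W.a₄) ^ 2 - (W.a₂ + 2 * x₁) * (4 * F * v₁ ^ 2))
    (hv₃ : v₃ * (2 * F * v₁) =
      -((3 * x₁ ^ 2 + 2 * W.a₂ * x₁ + W.a₄) * (x₃ - x₁) + v₁ * (2 * F * v₁))) :
    ∃ h₃, Point.some x₁ (y * v₁) h₁ + Point.some x₁ (y * v₁) h₁ = Point.some x₃ (y * v₃) h₃ := by
  have hne : y * v₁ ≠ W.toAffine.negY x₁ (y * v₁) := by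
    simp only [negY, ha₁, ha₃]
    intro h
    have h' : 2 * (y * v₁) = 0 := by linear_combination h
    exact mul_ne_zero h2 (mul_ne_zero hy hv₁) h'
  have hsl : W.toAffine.slope x₁ x₁ (y * v₁) (y * v₁) =
      (3 * x₁ ^ 2 + 2 * W.a₂ * x₁ + W.a₄) / (2 * (y * v₁)) := by
    rw [slope_of_Y_ne rfl hne]
    simp only [negY, ha₁, ha₃]
    congr 1 <;> ring
  have hD : 2 * (y * v₁) ≠ 0 := mul_ne_zero h2 (mul_ne_zero hy hv₁)
  have hx₃' : x₃ * (2 * (y * v₁)) ^ 2 =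
      (3 * x₁ ^ 2 + 2 * W.a₂ * x₁ + W.a₄) ^ 2 - (W.a₂ + x₁ + x₁) * (2 * (y * v₁)) ^ 2 := by
    have e : (2 * (y * v₁)) ^ 2 = 4 * F * v₁ ^ 2 := by rw [← hF]; ring
    rw [e, hx₃]; ring
  have hv₃' : y * v₃ * (2 * (y * v₁)) =
      -((3 * x₁ ^ 2 + 2 * W.a₂ * x₁ + W.a₄) * (x₃ - x₁) + y * v₁ * (2 * (y * v₁))) := by
    have e : y * v₃ * (2 * (y * v₁)) = v₃ * (2 * F * v₁) := by rw [← hF]; ring
    rw [e, hv₃, ← hF]; ring
  generalize 2 * (y * v₁) = D at hD hx₃' hv₃' hsl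
  generalize 3 * x₁ ^ 2 + 2 * W.a₂ * x₁ + W.a₄ = T at hx₃' hv₃' hsl
  have hX : W.toAffine.addX x₁ x₁ (W.toAffine.slope x₁ x₁ (y * v₁) (y * v₁)) = x₃ := by
    rw [hsl]
    simp only [addX, ha₁]
    field_simp
    linear_combination -hx₃'
  have hY : W.toAffine.addY x₁ x₁ (y * v₁) (W.toAffine.slope x₁ x₁ (y * v₁) (y * v₁)) =
      y * v₃ := by
    simp only [addY, negAddY, negY, hX, ha₁, ha₃]
    rw [hsl]
    field_simp
    linear_combination -hv₃'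
  rw [Point.add_self_of_Y_ne hne]
  exact h3_some_congr hX hY _

/-- Duplication with prescribed target. -/
lemma h3_dbl (W : WeierstrassCurve k) (ha₁ : W.a₁ = 0) (ha₃ : W.a₃ = 0) (h2 : (2 : k) ≠ 0)
    {x₁ y₁ x₃ y₃ : k} (hy : y₁ ≠ 0) (h₁ : W.toAffine.Nonsingular x₁ y₁)
    (hx₃ : x₃ * (2 * y₁) ^ 2 =
      (3 * x₁ ^ 2 + 2 * W.a₂ * x₁ + W.a₄) ^ 2 - (W.a₂ + x₁ + x₁) * (2 * y₁) ^ 2)
    (hy₃ : y₃ * (2 * y₁) =
      -((3 * x₁ ^ 2 + 2 * W.a₂ * x₁ + W.a₄) * (x₃ - x₁) + y₁ * (2 * y₁))) :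
    ∃ h₃, Point.some x₁ y₁ h₁ + Point.some x₁ y₁ h₁ = Point.some x₃ y₃ h₃ := by
  have hne : y₁ ≠ W.toAffine.negY x₁ y₁ := by
    simp only [negY, ha₁, ha₃]
    intro h
    have h' : 2 * y₁ = 0 := by linear_combination h
    exact mul_ne_zero h2 hy h'
  have hsl : W.toAffine.slope x₁ x₁ y₁ y₁ =
      (3 * x₁ ^ 2 + 2 * W.a₂ * x₁ + W.a₄) / (2 * y₁) := by
    rw [slope_of_Y_ne rfl hne]
    simp only [negY, ha₁, ha₃]
    congr 1 <;> ring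
  have hD : 2 * y₁ ≠ 0 := mul_ne_zero h2 hy
  have hy₃' : y₃ * (2 * y₁) =
      -((3 * x₁ ^ 2 + 2 * W.a₂ * x₁ + W.a₄) * (x₃ - x₁) + y₁ * (2 * y₁)) := hy₃
  generalize 2 * y₁ = D at hD hx₃ hy₃' hsl
  generalize 3 * x₁ ^ 2 + 2 * W.a₂ * x₁ + W.a₄ = T at hx₃ hy₃' hsl
  have hX : W.toAffine.addX x₁ x₁ (W.toAffine.slope x₁ x₁ y₁ y₁) = x₃ := by
    rw [hsl]
    simp only [addX, ha₁]
    field_simp
    linear_combination -hx₃
  have hY : W.toAffine.addY x₁ x₁ y₁ (W.toAffine.slope x₁ x₁ y₁ y₁) = y₃ := by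
    simp only [addY, negAddY, negY, hX, ha₁, ha₃]
    rw [hsl]
    field_simp
    linear_combination -hy₃'
  rw [Point.add_self_of_Y_ne hne]
  exact h3_some_congr hX hY _

end Fermat.Agent.H37.S58
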